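/-
S37 package [KRONECKER-NORM] (helper38), part 1: CLASSIFICATION of the embeddings of
`F_{Nℓ}(K) = K(t_e : e ∣ Nℓ)` over `F_N(K)`.

`w = q^(1/(Nℓ))`.  Let `Ω` be a field, `ι : K((w)) →+* Ω`, and `σ : F_{Nℓ}(K) →+* Ω` a ring
homomorphism which on `F_N(K)` is `x ↦ ι (x(w^(Nℓ)))`.  Then there is a monomial `c w^a`,
`(c, a) = (1, N ℓ²)` or `(c, a) = (ζ^b, N)` (`b < ℓ`), such that `σ (y(q^ℓ)) = ι (y(c w^a))` for all
`y ∈ F_N(K)`.

Only the prime-level ROOTS identity of S28 is used (via `modEqData_roots_monomial`); the induction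
`d → d p` compares exponents of monomials only.
-/
import Mathlib
import Fermat.Prelude.Def_ModularCurve_X0ModL
import Fermat.Agent.S28.SubstInterface
import Fermat.Agent.S28.ModEq
import Fermat.Agent.S18.CuspLand85

set_option autoImplicit false
set_option linter.style.haveILetI false

noncomputable section

open HahnSeries ModularCurve Polynomial

namespace Fermat.Agent.S37.KronNorm38

open Fermat.Agent.S28 Fermat.Agent.S28.Subst Fermat.Agent.S18.CuspLand85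

/-! ### total substitution -/

section Total

variable {K : Type} [Field K]

/-- `y ↦ y(c q^a)`, junk value `id` for `a = 0`. -/
def sb (c : Kˣ) (a : ℕ) : LaurentSeries K →+* LaurentSeries K :=
  if h : a = 0 then RingHom.id _ else @subst K _ c a ⟨h⟩

theorem sb_eq (c : Kˣ) (a : ℕ) [NeZero a] : sb c a = subst c a := by
  unfold sb
  rw [dif_neg (NeZero.ne a)]

theorem sb_C (c : Kˣ) (a : ℕ) (r : K) : sb c a (HahnSeries.C r) = HahnSeries.C r := by
  unfold sb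
  split_ifs with h
  · rfl
  · exact @subst_C K _ c a ⟨h⟩ r

theorem sb_tq (c : Kˣ) (a : ℕ) (ha : a ≠ 0) (d : ℕ) (hd : d ≠ 0) :
    sb c a (tq K d) = mono K (c ^ d) (a * d) := by
  haveI : NeZero a := ⟨ha⟩
  haveI : NeZero d := ⟨hd⟩
  haveI : NeZero (a * d) := ⟨Nat.mul_ne_zero ha hd⟩
  rw [sb_eq, tq_eq, mono_eq, subst_qExpand]

theorem mono_injective {c c' : Kˣ} {a a' : ℕ} (ha : a ≠ 0) (ha' : a' ≠ 0)
    (h : mono K c a = mono K c' a') : a = a' ∧ c = c' := by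
  haveI : NeZero a := ⟨ha⟩
  haveI : NeZero a' := ⟨ha'⟩
  rw [mono_eq, mono_eq] at h
  exact subst_jqModC_injective h

theorem qExpand_tq (M : ℕ) [NeZero M] (d : ℕ) (hd : d ≠ 0) :
    qExpand K M (tq K d) = mono K 1 (M * d) := by
  haveI : NeZero d := ⟨hd⟩
  haveI : NeZero (M * d) := ⟨Nat.mul_ne_zero (NeZero.ne M) hd⟩
  rw [tq_eq, qExpand_qExpand, mono_one_left, tq_eq]

end Total

/-! ### the classification -/

section Classify

variable {K : Type} [Field K] {N ℓ : ℕ} [NeZero N] [NeZero ℓ] {Ω : Type*} [Field Ω]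

/-- the field `F_M(K)` as a type -/
abbrev FF (K : Type) [Field K] (M : ℕ) [NeZero M] : Type := ↥(modularFunctionFieldFullC K M)

instance : NeZero (N * ℓ) := ⟨Nat.mul_ne_zero (NeZero.ne N) (NeZero.ne ℓ)⟩

/-- the admissible monomials `c w^a`: `(1, N ℓ²)` and `(ζ^b, N)`. -/
def IsShape (ζ : Kˣ) (N ℓ : ℕ) (c : Kˣ) (a : ℕ) : Prop :=
  (c = 1 ∧ a = N * (ℓ * ℓ)) ∨ (∃ b < ℓ, c = ζ ^ b ∧ a = N)

/-- the hypothesis on `σ`: on `F_N` it is `x ↦ ι (x(w^(Nℓ)))`. -/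
def BaseOn (ι : LaurentSeries K →+* Ω) (σ : FF K (N * ℓ) →+* Ω) : Prop :=
  ∀ x : FF K (N * ℓ), (x : LaurentSeries K) ∈ modularFunctionFieldFullC K N →
    σ x = ι (qExpand K (N * ℓ) (x : LaurentSeries K))

/-- transport of the prime-level relation `Φ_p(t_{e p}, t_e) = 0` to `Ω`. -/
theorem rel_transport (σ : FF K (N * ℓ) →+* Ω) {p : ℕ} [NeZero p] (D : ModEqData p) (ζp : Kˣ)
    (hζp : (cyclotomic p K).IsRoot (ζp : K)) (e : ℕ) (he : e ≠ 0)
    (x0 x1 : FF K (N * ℓ)) (hx0 : (x0 : LaurentSeries K) = tq K e)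
    (hx1 : (x1 : LaurentSeries K) = tq K (e * p)) :
    (evalInner D.Phi (σ x0)).eval (σ x1) = 0 := by
  haveI : NeZero e := ⟨he⟩
  have hrelF : (evalInner D.Phi x0).eval x1 = 0 := by
    have hinj : Function.Injective
        (algebraMap (FF K (N * ℓ)) (LaurentSeries K)) :=
      (algebraMap (FF K (N * ℓ)) (LaurentSeries K)).injective
    apply hinj
    rw [map_zero, map_eval_evalInner]
    show (evalInner D.Phi (x0 : LaurentSeries K)).eval (x1 : LaurentSeries K) = 0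
    rw [hx0, hx1]
    exact evalInner_tq_eval D ζp hζp e
  rw [← map_eval_evalInner, hrelF, map_zero]

/-- the root dichotomy in `Ω`. -/
theorem roots_dichotomy (ι : LaurentSeries K →+* Ω) {p : ℕ} [NeZero p] (D : ModEqData p)
    (ζp : Kˣ) (hζp : (cyclotomic p K).IsRoot (ζp : K)) (c0 : Kˣ) (a0 : ℕ) (ha0 : a0 ≠ 0)
    (z : Ω) (h : (evalInner D.Phi (ι (mono K (c0 ^ p) (a0 * p)))).eval z = 0) :
    z = ι (mono K (c0 ^ (p * p)) (a0 * (p * p))) ∨ ∃ b < p, z = ι (mono K (c0 * ζp ^ b) a0) := by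
  haveI : NeZero a0 := ⟨ha0⟩
  haveI : NeZero (a0 * p) := ⟨Nat.mul_ne_zero ha0 (NeZero.ne p)⟩
  haveI : NeZero (a0 * (p * p)) :=
    ⟨Nat.mul_ne_zero ha0 (Nat.mul_ne_zero (NeZero.ne p) (NeZero.ne p))⟩
  rw [mono_eq, ← evalInner_map, evalInner_eq_map_evalY,
    modEqData_roots_monomial D K ζp hζp c0 a0, Polynomial.map_mul, Polynomial.map_sub,
    Polynomial.map_X, Polynomial.map_C, Polynomial.map_prod, Polynomial.eval_mul,
    Polynomial.eval_sub, Polynomial.eval_X, Polynomial.eval_C, Polynomial.eval_prod,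
    mul_eq_zero, sub_eq_zero, Finset.prod_eq_zero_iff] at h
  rcases h with h | ⟨b, hb, hb'⟩
  · left
    rw [h, mono_eq]
  · right
    rw [Polynomial.map_sub, Polynomial.map_X, Polynomial.map_C, Polynomial.eval_sub,
      Polynomial.eval_X, Polynomial.eval_C, sub_eq_zero] at hb'
    exact ⟨b, Finset.mem_range.mp hb, by rw [hb', mono_eq]⟩


/-- membership helper -/
theorem tq_mem_FF (K : Type) [Field K] {M e : ℕ} [NeZero M] (he : e ∣ M) :
    tq K e ∈ modularFunctionFieldFullC K M := tq_mem_full K he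

/-- **base case**: the value of `σ` at `t_ℓ`. -/
theorem base_case (hmod : ModEqStatement) (hℓ : ℓ.Prime) (ζ : Kˣ)
    (hζ : (cyclotomic ℓ K).IsRoot (ζ : K))
    (ι : LaurentSeries K →+* Ω) (σ : FF K (N * ℓ) →+* Ω) (hσ : BaseOn ι σ) :
    ∃ (c : Kˣ) (a : ℕ), IsShape ζ N ℓ c a ∧
      ∀ x : FF K (N * ℓ), (x : LaurentSeries K) = tq K ℓ → σ x = ι (mono K c a) := by
  obtain ⟨D⟩ := hmod ℓ hℓ
  have hN0 : N ≠ 0 := NeZero.ne N
  have hℓ0 : ℓ ≠ 0 := NeZero.ne ℓ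
  set x0 : FF K (N * ℓ) := ⟨tq K 1, tq_mem_FF K (one_dvd _)⟩ with hx0
  set x1 : FF K (N * ℓ) := ⟨tq K ℓ, tq_mem_FF K (Dvd.intro_left N rfl)⟩ with hx1
  have hrel := rel_transport σ D ζ hζ 1 one_ne_zero x0 x1 rfl (by rw [one_mul])
  have hσx0 : σ x0 = ι (mono K ((1 : Kˣ) ^ ℓ) (N * ℓ)) := by
    rw [hσ x0 (tq_mem_FF K (one_dvd N))]
    show ι (qExpand K (N * ℓ) (tq K 1)) = _
    rw [qExpand_tq (N * ℓ) 1 one_ne_zero, mul_one, one_pow]
  rw [hσx0] at hrel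
  rcases roots_dichotomy ι D ζ hζ 1 N hN0 _ hrel with h | ⟨b, hb, h⟩
  · refine ⟨1, N * (ℓ * ℓ), Or.inl ⟨rfl, rfl⟩, ?_⟩
    intro x hx
    have : x = x1 := Subtype.ext hx
    rw [this, h, one_pow]
  · refine ⟨ζ ^ b, N, Or.inr ⟨b, hb, rfl, rfl⟩, ?_⟩
    intro x hx
    have : x = x1 := Subtype.ext hx
    rw [this, h, one_mul]

/-- The statement `P(d)`: `σ (t_{dℓ}) = ι (t(c^d w^(a d)))`. -/
def AtLevel (ι : LaurentSeries K →+* Ω) (σ : FF K (N * ℓ) →+* Ω) (c : Kˣ) (a d : ℕ) : Prop :=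
  ∀ x : FF K (N * ℓ), (x : LaurentSeries K) = tq K (d * ℓ) → σ x = ι (mono K (c ^ d) (a * d))

/-- **inductive step** `d₀ → d₀ p`. -/
theorem step (hmod : ModEqStatement) (hK : EnoughRoots K (N * ℓ)) (hℓ : ℓ.Prime) (hℓN : ¬ ℓ ∣ N)
    (ζ : Kˣ) (hζ : (cyclotomic ℓ K).IsRoot (ζ : K))
    (ι : LaurentSeries K →+* Ω) (σ : FF K (N * ℓ) →+* Ω) (hσ : BaseOn ι σ)
    (c : Kˣ) (u : ℕ) (hu : u = 1 ∨ u = ℓ * ℓ)
    {d0 p : ℕ} (hp : p.Prime) (hdvd : d0 * p ∣ N) (h0 : AtLevel ι σ c (N * u) d0) :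
    AtLevel ι σ c (N * u) (d0 * p) := by
  classical
  have hN0 : N ≠ 0 := NeZero.ne N
  have hℓ0 : ℓ ≠ 0 := NeZero.ne ℓ
  have hu0 : u ≠ 0 := by
    rcases hu with rfl | rfl
    · exact one_ne_zero
    · exact Nat.mul_ne_zero hℓ0 hℓ0
  have hd0 : d0 ≠ 0 := by
    rintro rfl
    rw [zero_mul] at hdvd
    exact hN0 (zero_dvd_iff.mp hdvd)
  have hpN : p ∣ N := (Dvd.intro_left d0 rfl).trans hdvd
  have hpM : p ∣ N * ℓ := hpN.trans (Dvd.intro _ rfl)
  have hpℓ : p ≠ ℓ := by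
    rintro rfl
    exact hℓN hpN
  obtain ⟨N', rfl⟩ := hpN
  have hN'0 : N' ≠ 0 := by
    rintro rfl
    exact hN0 (mul_zero p)
  haveI : NeZero p := ⟨hp.ne_zero⟩
  obtain ⟨Dp⟩ := hmod p hp
  obtain ⟨Dℓ⟩ := hmod ℓ hℓ
  obtain ⟨ζp, hζp⟩ := hK.zeta p hp hpM
  obtain ⟨c0, hc0⟩ := hK.root p hp hpM (c ^ d0)
  -- the exponent `a₀`
  set a0 : ℕ := N' * u * d0 with ha0
  have ha0ne : a0 ≠ 0 := Nat.mul_ne_zero (Nat.mul_ne_zero hN'0 hu0) hd0
  have hexp : p * N' * u * d0 = a0 * p := by rw [ha0]; ring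
  -- the elements
  have hd0ℓ : d0 * ℓ ∣ p * N' * ℓ :=
    Nat.mul_dvd_mul ((Dvd.intro _ rfl).trans hdvd) dvd_rfl
  have hd0pℓ : d0 * p * ℓ ∣ p * N' * ℓ := Nat.mul_dvd_mul hdvd dvd_rfl
  set x0 : FF K (p * N' * ℓ) := ⟨tq K (d0 * ℓ), tq_mem_FF K hd0ℓ⟩ with hx0
  set x1 : FF K (p * N' * ℓ) := ⟨tq K (d0 * p * ℓ), tq_mem_FF K hd0pℓ⟩ with hx1
  set x2 : FF K (p * N' * ℓ) :=
    ⟨tq K (d0 * p), tq_mem_FF K (hdvd.trans (Dvd.intro _ rfl))⟩ with hx2
  -- relation 1: `Φ_p(t_{d₀ℓp}, t_{d₀ℓ}) = 0`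
  have hrel1 := rel_transport σ Dp ζp hζp (d0 * ℓ) (Nat.mul_ne_zero hd0 hℓ0) x0 x1 rfl
    (by rw [hx1]; show tq K (d0 * p * ℓ) = _; congr 1; ring)
  have hσx0 : σ x0 = ι (mono K (c0 ^ p) (a0 * p)) := by
    rw [h0 x0 rfl, hc0, ← hexp]
  rw [hσx0] at hrel1
  -- relation 2: `Φ_ℓ(t_{d₀pℓ}, t_{d₀p}) = 0`
  have hrel2 := rel_transport σ Dℓ ζ hζ (d0 * p) (Nat.mul_ne_zero hd0 hp.ne_zero) x2 x1 rfl rfl
  have hσx2 : σ x2 = ι (mono K ((1 : Kˣ) ^ ℓ) (p * N' * (d0 * p) * ℓ)) := by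
    rw [hσ x2 (tq_mem_FF K hdvd)]
    show ι (qExpand K (p * N' * ℓ) (tq K (d0 * p))) = _
    rw [qExpand_tq _ _ (Nat.mul_ne_zero hd0 hp.ne_zero), one_pow]
    congr 2
    ring
  rw [hσx2] at hrel2
  have hb0ne : p * N' * (d0 * p) ≠ 0 :=
    Nat.mul_ne_zero hN0 (Nat.mul_ne_zero hd0 hp.ne_zero)
  intro x hx
  have hxx : x = x1 := Subtype.ext hx
  rw [hxx]
  rcases roots_dichotomy ι Dp ζp hζp c0 a0 ha0ne _ hrel1 with h | ⟨b, -, h⟩
  · rw [h]
    congr 2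
    · rw [pow_mul, hc0, ← pow_mul]
    · rw [ha0]; ring
  · exfalso
    have hp2 := hp.two_le
    have hℓ2 := hℓ.two_le
    have hpos : 0 < N' * d0 := Nat.pos_of_ne_zero (Nat.mul_ne_zero hN'0 hd0)
    have hpp : 4 ≤ p * p := by nlinarith
    have hℓℓ : 4 ≤ ℓ * ℓ := by nlinarith
    have h16 : 16 ≤ p * p * (ℓ * ℓ) := Nat.mul_le_mul hpp hℓℓ
    rcases roots_dichotomy ι Dℓ ζ hζ 1 _ hb0ne _ hrel2 with h' | ⟨b', -, h'⟩
    · rw [h] at h'
      have := (mono_injective ha0ne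
        (Nat.mul_ne_zero hb0ne (Nat.mul_ne_zero hℓ0 hℓ0)) (ι.injective h')).1
      rw [ha0] at this
      rcases hu with rfl | rfl
      · have h1 : N' * d0 * 1 = N' * d0 * (p * p * (ℓ * ℓ)) := by
          rw [show N' * d0 * 1 = N' * 1 * d0 by ring, this]; ring
        have h2 := Nat.eq_of_mul_eq_mul_left hpos h1
        omega
      · have h1 : N' * d0 * (ℓ * ℓ) * 1 = N' * d0 * (ℓ * ℓ) * (p * p) := by
          rw [show N' * d0 * (ℓ * ℓ) * 1 = N' * (ℓ * ℓ) * d0 by ring, this]; ring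
        have hpos' : 0 < N' * d0 * (ℓ * ℓ) :=
          Nat.mul_pos hpos (Nat.mul_pos hℓ.pos hℓ.pos)
        have h2 := Nat.eq_of_mul_eq_mul_left hpos' h1
        omega
    · rw [h] at h'
      have := (mono_injective ha0ne hb0ne (ι.injective h')).1
      rw [ha0] at this
      rcases hu with rfl | rfl
      · have h1 : N' * d0 * 1 = N' * d0 * (p * p) := by
          rw [show N' * d0 * 1 = N' * 1 * d0 by ring, this]; ring
        have h2 := Nat.eq_of_mul_eq_mul_left hpos h1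
        omega
      · have h1 : N' * d0 * (ℓ * ℓ) = N' * d0 * (p * p) := by
          rw [show N' * d0 * (ℓ * ℓ) = N' * (ℓ * ℓ) * d0 by ring, this]; ring
        have h2 : ℓ * ℓ = p * p := Nat.eq_of_mul_eq_mul_left hpos h1
        exact hpℓ (Nat.mul_self_inj.mp h2).symm

/-- `P(d)` for every `d ∣ N`. -/
theorem atLevel_of_dvd (hmod : ModEqStatement) (hK : EnoughRoots K (N * ℓ)) (hℓ : ℓ.Prime)
    (hℓN : ¬ ℓ ∣ N) (ζ : Kˣ) (hζ : (cyclotomic ℓ K).IsRoot (ζ : K))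
    (ι : LaurentSeries K →+* Ω) (σ : FF K (N * ℓ) →+* Ω) (hσ : BaseOn ι σ)
    (c : Kˣ) (u : ℕ) (hu : u = 1 ∨ u = ℓ * ℓ)
    (h1 : AtLevel ι σ c (N * u) 1) :
    ∀ d : ℕ, d ∣ N → AtLevel ι σ c (N * u) d := by
  intro d
  induction d using Nat.strong_induction_on with
  | _ d ih =>
    intro hd
    by_cases h1d : d = 1
    · subst h1d
      exact h1
    · have hd0 : d ≠ 0 := fun h => NeZero.ne N (by rw [h] at hd; exact zero_dvd_iff.mp hd)
      have hp : (d.minFac).Prime := Nat.minFac_prime h1d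
      obtain ⟨d0, hd0'⟩ := Nat.minFac_dvd d
      have hdd : d = d0 * d.minFac := by rw [mul_comm]; exact hd0'
      have hd0pos : 0 < d0 := by
        rcases Nat.eq_zero_or_pos d0 with h | h
        · rw [h, zero_mul] at hdd; exact absurd hdd hd0
        · exact h
      have hlt : d0 < d := by
        conv_rhs => rw [hdd]
        exact lt_mul_of_one_lt_right hd0pos hp.one_lt
      have hd0N : d0 ∣ N := (Dvd.intro _ hdd.symm).trans hd
      have := step hmod hK hℓ hℓN ζ hζ ι σ hσ c u hu hp (by rw [← hdd]; exact hd)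
        (ih d0 hlt hd0N)
      rwa [← hdd] at this

omit [NeZero N] in
/-- `qExpand ℓ` maps `F_N` into `F_{Nℓ}`. -/
theorem qExpand_mem_FF {y : LaurentSeries K} (hy : y ∈ modularFunctionFieldFullC K N) :
    qExpand K ℓ y ∈ modularFunctionFieldFullC K (N * ℓ) := by
  apply full_degeneracyC_map_le K N ℓ
  exact ⟨y, hy, rfl⟩

/-- **CLASSIFICATION.**  `σ (y(q^ℓ)) = ι (y(c w^a))` for all `y ∈ F_N`, with `(c, a)` one of the
`ℓ + 1` admissible monomials. -/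
theorem classify (hmod : ModEqStatement) (hK : EnoughRoots K (N * ℓ)) (hℓ : ℓ.Prime)
    (hℓN : ¬ ℓ ∣ N) (ζ : Kˣ) (hζ : (cyclotomic ℓ K).IsRoot (ζ : K))
    (ι : LaurentSeries K →+* Ω) (σ : FF K (N * ℓ) →+* Ω) (hσ : BaseOn ι σ) :
    ∃ (c : Kˣ) (a : ℕ), IsShape ζ N ℓ c a ∧
      ∀ (y : LaurentSeries K) (hy : y ∈ modularFunctionFieldFullC K N),
        σ ⟨qExpand K ℓ y, qExpand_mem_FF hy⟩ = ι (sb c a y) := by
  have hN0 : N ≠ 0 := NeZero.ne N
  have hℓ0 : ℓ ≠ 0 := NeZero.ne ℓ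
  obtain ⟨c, a, hshape, hbase⟩ := base_case hmod hℓ ζ hζ ι σ hσ
  refine ⟨c, a, hshape, ?_⟩
  -- `a = N u`
  obtain ⟨u, hu, rfl⟩ : ∃ u, (u = 1 ∨ u = ℓ * ℓ) ∧ a = N * u := by
    rcases hshape with ⟨-, ha⟩ | ⟨b, -, -, ha⟩
    · exact ⟨ℓ * ℓ, Or.inr rfl, ha⟩
    · exact ⟨1, Or.inl rfl, by rw [ha, mul_one]⟩
  have hu0 : u ≠ 0 := by
    rcases hu with rfl | rfl
    · exact one_ne_zero
    · exact Nat.mul_ne_zero hℓ0 hℓ0
  have ha0 : N * u ≠ 0 := Nat.mul_ne_zero hN0 hu0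
  have h1 : AtLevel ι σ c (N * u) 1 := by
    intro x hx
    rw [one_mul] at hx
    rw [hbase x hx, pow_one, mul_one]
  have hall := atLevel_of_dvd hmod hK hℓ hℓN ζ hζ ι σ hσ c u hu h1
  -- extend from the generators
  intro y hy
  induction hy using IntermediateField.adjoin_induction with
  | mem y hy =>
      obtain ⟨d, hne, hdN, rfl⟩ := hy
      have hd0 : d ≠ 0 := hne.out
      have hx : ((⟨qExpand K ℓ (qExpand K d (jqModC K)), qExpand_mem_FF
          (IntermediateField.subset_adjoin K _ ⟨d, hne, hdN, rfl⟩)⟩ : FF K (N * ℓ)) :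
            LaurentSeries K) = tq K (d * ℓ) := by
        haveI : NeZero (d * ℓ) := ⟨Nat.mul_ne_zero hd0 hℓ0⟩
        show qExpand K ℓ (qExpand K d (jqModC K)) = _
        rw [qExpand_qExpand, tq_eq]
        exact qExpand_congr (mul_comm ℓ d) _
      rw [hall d hdN _ hx, ← sb_tq c (N * u) ha0 d hd0, tq_eq]
  | algebraMap r =>
      have hmemN : (algebraMap K (LaurentSeries K) r) ∈ modularFunctionFieldFullC K N :=
        (modularFunctionFieldFullC K N).algebraMap_mem r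
      have hC : algebraMap K (LaurentSeries K) r = HahnSeries.C r := by
        rw [algebraMap_laurentSeries_eq_single]; rfl
      have hq : ∀ (M : ℕ) [NeZero M], qExpand K M (algebraMap K (LaurentSeries K) r) =
          algebraMap K (LaurentSeries K) r := by
        intro M _
        rw [hC, qExpand_C]
      have hmem' : ((⟨qExpand K ℓ (algebraMap K (LaurentSeries K) r),
          qExpand_mem_FF hmemN⟩ : FF K (N * ℓ)) : LaurentSeries K) ∈
            modularFunctionFieldFullC K N := by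
        show qExpand K ℓ (algebraMap K (LaurentSeries K) r) ∈ _
        rw [hq ℓ]
        exact hmemN
      rw [hσ _ hmem']
      show ι (qExpand K (N * ℓ) (qExpand K ℓ (algebraMap K (LaurentSeries K) r))) = _
      rw [hq ℓ, hq (N * ℓ), hC, sb_C]
  | add x y hx hy ihx ihy =>
      have : (⟨qExpand K ℓ (x + y), qExpand_mem_FF (add_mem hx hy)⟩ : FF K (N * ℓ)) =
          ⟨qExpand K ℓ x, qExpand_mem_FF hx⟩ + ⟨qExpand K ℓ y, qExpand_mem_FF hy⟩ :=
        Subtype.ext (map_add _ _ _)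
      rw [this, map_add, ihx, ihy, map_add, map_add]
  | inv x hx ihx =>
      have : (⟨qExpand K ℓ x⁻¹, qExpand_mem_FF (inv_mem hx)⟩ : FF K (N * ℓ)) =
          (⟨qExpand K ℓ x, qExpand_mem_FF hx⟩ : FF K (N * ℓ))⁻¹ :=
        Subtype.ext (map_inv₀ _ _)
      rw [this, map_inv₀, ihx, map_inv₀, map_inv₀]
  | mul x y hx hy ihx ihy =>
      have : (⟨qExpand K ℓ (x * y), qExpand_mem_FF (mul_mem hx hy)⟩ : FF K (N * ℓ)) =
          ⟨qExpand K ℓ x, qExpand_mem_FF hx⟩ * ⟨qExpand K ℓ y, qExpand_mem_FF hy⟩ :=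
        Subtype.ext (map_mul _ _ _)
      rw [this, map_mul, ihx, ihy, map_mul, map_mul]

/-- **UNIQUENESS.**  Two ring homomorphisms `F_{Nℓ} → Ω` with the same restriction to `F_N`
(`BaseOn`) and the same composite with `y ↦ y(q^ℓ)` are equal. -/
theorem eq_of_agree (hℓ : ℓ.Prime)
    (ι : LaurentSeries K →+* Ω) (σ σ' : FF K (N * ℓ) →+* Ω) (hσ : BaseOn ι σ)
    (hσ' : BaseOn ι σ')
    (h : ∀ (y : LaurentSeries K) (hy : y ∈ modularFunctionFieldFullC K N),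
      σ ⟨qExpand K ℓ y, qExpand_mem_FF hy⟩ = σ' ⟨qExpand K ℓ y, qExpand_mem_FF hy⟩) :
    σ = σ' := by
  ext ⟨x, hx⟩
  induction hx using IntermediateField.adjoin_induction with
  | mem x hx =>
      obtain ⟨e, hne, heM, rfl⟩ := hx
      by_cases heN : e ∣ N
      · have hmem : qExpand K e (jqModC K) ∈ modularFunctionFieldFullC K N :=
          jqModCd_mem_full K N heN
        rw [hσ _ hmem, hσ' _ hmem]
      · have hℓe : ℓ ∣ e := by
          by_contra hne'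
          have hcop : Nat.Coprime e ℓ := ((Nat.Prime.coprime_iff_not_dvd hℓ).mpr hne').symm
          exact heN (hcop.dvd_of_dvd_mul_right heM)
        obtain ⟨d, rfl⟩ := hℓe
        have hdN : d ∣ N := by
          rw [mul_comm N ℓ] at heM
          exact Nat.dvd_of_mul_dvd_mul_left hℓ.pos heM
        have hd0 : d ≠ 0 := fun h0 => NeZero.ne N (by rw [h0] at hdN; exact zero_dvd_iff.mp hdN)
        haveI : NeZero d := ⟨hd0⟩
        have hmem : qExpand K d (jqModC K) ∈ modularFunctionFieldFullC K N :=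
          jqModCd_mem_full K N hdN
        have hx : (⟨qExpand K (ℓ * d) (jqModC K),
            IntermediateField.subset_adjoin K _ ⟨ℓ * d, hne, heM, rfl⟩⟩ : FF K (N * ℓ)) =
            ⟨qExpand K ℓ (qExpand K d (jqModC K)), qExpand_mem_FF hmem⟩ :=
          Subtype.ext (qExpand_qExpand (R := K) d ℓ (jqModC K)).symm
        rw [hx]
        exact h _ hmem
  | algebraMap r =>
      have hmemN : (algebraMap K (LaurentSeries K) r) ∈ modularFunctionFieldFullC K N :=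
        (modularFunctionFieldFullC K N).algebraMap_mem r
      rw [hσ _ hmemN, hσ' _ hmemN]
  | add x y hx hy ihx ihy =>
      have : (⟨x + y, add_mem hx hy⟩ : FF K (N * ℓ)) = ⟨x, hx⟩ + ⟨y, hy⟩ := rfl
      rw [this, map_add, map_add, ihx, ihy]
  | inv x hx ihx =>
      have : (⟨x⁻¹, inv_mem hx⟩ : FF K (N * ℓ)) = (⟨x, hx⟩ : FF K (N * ℓ))⁻¹ := rfl
      rw [this, map_inv₀, map_inv₀, ihx]
  | mul x y hx hy ihx ihy =>
      have : (⟨x * y, mul_mem hx hy⟩ : FF K (N * ℓ)) = ⟨x, hx⟩ * ⟨y, hy⟩ := rfl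
      rw [this, map_mul, map_mul, ihx, ihy]

end Classify

end Fermat.Agent.S37.KronNorm38
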