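/-
S37 package [KRONECKER-NORM] (helper38), part 3a: abstract degree bookkeeping.
Two intermediate fields `FB ≤ FB'` of `E/K` presented as types, with a map `α : FB → FB'` which is
the inclusion: `finrank_α FB FB' = relfinrank FB FB'`; and `finrank K⟮x⟯ FB = relfinrank K⟮x⟯ FB`.
-/
import Mathlib

set_option autoImplicit false
set_option linter.style.haveILetI false

noncomputable section

open IntermediateField

namespace Fermat.Agent.S37.KronNorm38

section Abs

variable {K E : Type*} [Field K] [Field E] [Algebra K E]

/-- `[FB : K(x)]` computed inside `FB` equals the relative rank inside `E`. -/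
theorem finrank_adjoin_simple_eq_relfinrank (FB : IntermediateField K E) (x : FB) :
    Module.finrank (↥K⟮x⟯) FB = (K⟮(x : E)⟯).relfinrank FB := by
  have h1 : (K⟮(x : E)⟯).comap FB.val = K⟮x⟯ := by
    have : (K⟮x⟯ : IntermediateField K FB).map FB.val = K⟮(x : E)⟯ := by
      rw [IntermediateField.adjoin_map]
      simp
    rw [← this, IntermediateField.comap_map]
  have h2 := IntermediateField.finrank_comap (K⟮(x : E)⟯) FB.val
  rw [h1, IntermediateField.fieldRange_val] at h2
  exact h2

/-- the degree along an inclusion-like map equals the relative rank. -/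
theorem finrank_along_eq_relfinrank (FB FB' : IntermediateField K E) (α : FB →+* FB')
    (hα : ∀ y, ((α y : FB') : E) = y) :
    letI := α.toAlgebra
    Module.finrank FB FB' = FB.relfinrank FB' := by
  letI := α.toAlgebra
  have h2 := IntermediateField.finrank_comap FB FB'.val
  rw [IntermediateField.fieldRange_val] at h2
  rw [← h2]
  -- the ring isomorphism `FB ≃ comap`
  let i : FB ≃+* ↥(FB.comap FB'.val) :=
    { toFun := fun y => ⟨α y, by
        show ((α y : FB') : E) ∈ FB
        rw [hα]
        exact y.2⟩
      invFun := fun z => ⟨((z : FB') : E), z.2⟩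
      left_inv := fun y => Subtype.ext (hα y)
      right_inv := fun z => Subtype.ext (Subtype.ext (hα _))
      map_mul' := fun a b => Subtype.ext (map_mul α a b)
      map_add' := fun a b => Subtype.ext (map_add α a b) }
  refine Algebra.finrank_eq_of_equiv_equiv i (RingEquiv.refl FB') ?_
  ext y
  rfl

end Abs

end Fermat.Agent.S37.KronNorm38
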