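/-
S37 package [KRONECKER-NORM] (helper38), part 3b: `[F_{Nℓ} : F_N] = ℓ + 1` over `ℚ̄` along
`heckeAlphaBar` (`ℓ` prime, `ℓ ∤ N`), from `S24.Exports.degOver_jF` at both levels.
-/
import Fermat.Agent.S24.Exports
import Fermat.Agent.S28.Psi
import Fermat.Agent.S37.KronNorm38.DegreeAbs
import Fermat.Prelude.Def_ModularCurve_HeckeOperator

set_option autoImplicit false
set_option linter.style.haveILetI false

noncomputable section

open HahnSeries ModularCurve IntermediateField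

namespace Fermat.Agent.S37.KronNorm38

open Fermat.Agent.S24

section Degree

/-- `j` as a Laurent series over `ℚ̄`. -/
abbrev tBar : LaurentSeries Kbar := coeffEmb Kbar jq

theorem relfinrank_tBar_bar (N : ℕ) [NeZero N] :
    (Kbar⟮tBar⟯).relfinrank (modularFunctionFieldBar N) = dedekindPsi N := by
  have h := finrank_adjoin_simple_eq_relfinrank (modularFunctionFieldBar N) (jF N)
  have h2 : Module.finrank (↥Kbar⟮jF N⟯) (FN N) = dedekindPsi N := Exports.degOver_jF N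
  rw [h2] at h
  exact h.symm

theorem tBar_le_bar (N : ℕ) [NeZero N] : Kbar⟮tBar⟯ ≤ modularFunctionFieldBar N :=
  adjoin_simple_le_iff.mpr (coeffEmb_jq_mem N)

variable (N ℓ : ℕ) [NeZero N] [NeZero ℓ]

theorem bar_le_bar_mul : modularFunctionFieldBar N ≤ modularFunctionFieldBar (N * ℓ) := by
  intro x hx
  have h := (heckeAlphaBar Kbar N ℓ ⟨x, hx⟩).2
  rwa [coe_heckeAlphaBar] at h

theorem relfinrank_bar_bar_mul (hℓ : ℓ.Prime) (hℓN : ¬ ℓ ∣ N) :
    (modularFunctionFieldBar N).relfinrank (modularFunctionFieldBar (N * ℓ)) = ℓ + 1 := by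
  haveI : NeZero (N * ℓ) := ⟨Nat.mul_ne_zero (NeZero.ne N) (NeZero.ne ℓ)⟩
  have h := relfinrank_mul_relfinrank (tBar_le_bar N) (bar_le_bar_mul N ℓ)
  have hpsi : dedekindPsi (N * ℓ) = (ℓ + 1) * dedekindPsi N := by
    rw [mul_comm N ℓ]
    exact Fermat.Agent.S28.Psi.dedekindPsi_mul_of_not_dvd hℓ (NeZero.ne N) hℓN
  rw [relfinrank_tBar_bar, relfinrank_tBar_bar, hpsi, mul_comm] at h
  exact Nat.eq_of_mul_eq_mul_right (Fermat.Agent.S28.Psi.dedekindPsi_pos (NeZero.ne N)) h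

/-- **(KN1)** `[F_{Nℓ} : F_N] = ℓ + 1` along `heckeAlphaBar`. -/
theorem finrank_heckeAlphaBar (hℓ : ℓ.Prime) (hℓN : ¬ ℓ ∣ N) :
    letI := (heckeAlphaBar Kbar N ℓ).toRingHom.toAlgebra
    Module.finrank (FN N) (FN (N * ℓ)) = ℓ + 1 := by
  have h := finrank_along_eq_relfinrank (modularFunctionFieldBar N) (modularFunctionFieldBar (N * ℓ))
    (heckeAlphaBar Kbar N ℓ).toRingHom (fun y => coe_heckeAlphaBar N ℓ y)
  rw [relfinrank_bar_bar_mul N ℓ hℓ hℓN] at h
  exact h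

/-- `F_{Nℓ}` is finite over `F_N` along `heckeAlphaBar`. -/
theorem finite_heckeAlphaBar (hℓ : ℓ.Prime) (hℓN : ¬ ℓ ∣ N) :
    letI := (heckeAlphaBar Kbar N ℓ).toRingHom.toAlgebra
    Module.Finite (FN N) (FN (N * ℓ)) := by
  letI := (heckeAlphaBar Kbar N ℓ).toRingHom.toAlgebra
  apply Module.finite_of_finrank_pos
  rw [finrank_heckeAlphaBar N ℓ hℓ hℓN]
  exact Nat.succ_pos ℓ

/-- `F_{Nℓ}` is separable over `F_N` along `heckeAlphaBar` (characteristic `0`). -/
theorem isSeparable_heckeAlphaBar (hℓ : ℓ.Prime) (hℓN : ¬ ℓ ∣ N) :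
    letI := (heckeAlphaBar Kbar N ℓ).toRingHom.toAlgebra
    Algebra.IsSeparable (FN N) (FN (N * ℓ)) := by
  letI := (heckeAlphaBar Kbar N ℓ).toRingHom.toAlgebra
  haveI := finite_heckeAlphaBar N ℓ hℓ hℓN
  haveI : CharZero (FN N) := charZero_of_injective_algebraMap (algebraMap Kbar (FN N)).injective
  infer_instance

end Degree

end Fermat.Agent.S37.KronNorm38
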