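/-
S37 package [KRONECKER-NORM] (helper38), part 4a: FROBENIUS on Laurent series.
For a commutative ring `R` of prime characteristic `p` and `x ∈ R((q))`:
`x ^ p = x^{(p)}(q^p)`, i.e. `x ^ p = qExpand R p (coeffMap (frobenius R p) x)`.
-/
import Mathlib
import Fermat.Prelude.Def_ModularCurve_X0ModL

set_option autoImplicit false

noncomputable section

open HahnSeries ModularCurve

namespace Fermat.Agent.S37.KronNorm38

section Frob

variable {R : Type*} [CommRing R] (p : ℕ) [hp : Fact p.Prime] [CharP R p]

/-- Frobenius on power series: `g ^ p = g^{(p)}(X^p)`. -/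
theorem powerSeries_pow_char (g : PowerSeries R) :
    g ^ p = PowerSeries.expand p hp.out.ne_zero (g.map (frobenius R p)) := by
  ext n
  have h1 : PowerSeries.coeff n (g ^ p) =
      PowerSeries.coeff n ((((PowerSeries.trunc (n + 1) g : Polynomial R) ^ p : Polynomial R) :
        PowerSeries R)) := by
    rw [← PowerSeries.coeff_coe_trunc_of_lt (Nat.lt_succ_self n) (f := g ^ p),
      ← PowerSeries.trunc_trunc_pow, PowerSeries.coeff_coe_trunc_of_lt (Nat.lt_succ_self n),
      Polynomial.coe_pow]
  rw [h1, Polynomial.coeff_coe, ← Polynomial.map_frobenius_expand, Polynomial.coeff_map,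
    Polynomial.coeff_expand hp.out.pos, PowerSeries.coeff_expand]
  split_ifs with h
  · rw [PowerSeries.coeff_trunc, if_pos, PowerSeries.coeff_map]
    exact lt_of_le_of_lt (Nat.div_le_self n p) (Nat.lt_succ_self n)
  · rw [map_zero]

omit [CharP R p] in
/-- `qExpand` on power series is `PowerSeries.expand`. -/
theorem qExpand_ofPowerSeries [NeZero p] (g : PowerSeries R) :
    qExpand R p (HahnSeries.ofPowerSeries ℤ R g) =
      HahnSeries.ofPowerSeries ℤ R (PowerSeries.expand p hp.out.ne_zero g) := by
  ext n
  rcases le_or_gt 0 n with hn | hn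
  · lift n to ℕ using hn
    rw [HahnSeries.ofPowerSeries_apply_coeff, PowerSeries.coeff_expand]
    by_cases hd : p ∣ n
    · obtain ⟨m, rfl⟩ := hd
      rw [if_pos (Dvd.intro m rfl), Nat.mul_div_cancel_left m hp.out.pos]
      have : ((p * m : ℕ) : ℤ) = (p : ℤ) * (m : ℤ) := by push_cast; ring
      rw [this, qExpand_coeff_mul, HahnSeries.ofPowerSeries_apply_coeff]
    · rw [if_neg hd]
      apply qExpand_coeff_of_not_dvd
      intro h
      exact hd (Int.natCast_dvd_natCast.mp h)
  · rw [ofPowerSeries_coeff_of_neg _ hn]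
    by_cases hd : (p : ℤ) ∣ n
    · obtain ⟨m, rfl⟩ := hd
      have hm : m < 0 := by
        have hp0 : (0 : ℤ) < p := by exact_mod_cast hp.out.pos
        by_contra hm
        have : 0 ≤ (p : ℤ) * m := mul_nonneg hp0.le (not_lt.mp hm)
        omega
      rw [qExpand_coeff_mul, ofPowerSeries_coeff_of_neg _ hm]
    · exact qExpand_coeff_of_not_dvd p _ hd

/-- **Frobenius on Laurent series**: `x ^ p = x^{(p)}(q^p)`. -/
theorem laurent_pow_char [NeZero p] (x : LaurentSeries R) :
    x ^ p = qExpand R p (coeffMap (frobenius R p) x) := by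
  conv_lhs => rw [← LaurentSeries.single_order_mul_powerSeriesPart x]
  conv_rhs => rw [← LaurentSeries.single_order_mul_powerSeriesPart x]
  rw [mul_pow, map_mul, map_mul, HahnSeries.single_pow, one_pow, coeffMap_single, qExpand_single,
    map_one (frobenius R p), nsmul_eq_mul]
  congr 1
  show (HahnSeries.ofPowerSeries ℤ R x.powerSeriesPart) ^ p = _
  rw [← map_pow, powerSeries_pow_char p]
  show _ = qExpand R p (coeffMap (frobenius R p) (HahnSeries.ofPowerSeries ℤ R x.powerSeriesPart))
  rw [coeffMap_ofPowerSeries, qExpand_ofPowerSeries]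

end Frob

end Fermat.Agent.S37.KronNorm38
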