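/-
S37 package [KRONECKER-NORM] (helper38), part 2: the NORM FORMULA.

`F = F_N(K) ⊆ F' = F_{Nℓ}(K)` (`ℓ` prime, `ℓ ∤ N`), `[F' : F] = ℓ + 1` separable.  For `y ∈ F`:
`N_{F'/F}(y(q^ℓ)) (s^ℓ) = y(s^(ℓ²)) · ∏_{b<ℓ} y(ζ^b s)`   (`s = q^(1/ℓ)`).
-/
import Fermat.Agent.S37.KronNorm38.Classify

set_option autoImplicit false
set_option linter.style.haveILetI false

noncomputable section

open HahnSeries ModularCurve Polynomial

namespace Fermat.Agent.S37.KronNorm38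

open Fermat.Agent.S28 Fermat.Agent.S28.Subst Fermat.Agent.S18.CuspLand85

section Norm

variable {K : Type} [Field K] {N ℓ : ℕ} [NeZero N] [NeZero ℓ]

/-- the `ℓ + 1` conjugation substitutions, indexed by `Option (Fin ℓ)`. -/
def conj (ζ : Kˣ) (N ℓ : ℕ) : Option (Fin ℓ) → LaurentSeries K →+* LaurentSeries K
  | none => sb 1 (N * (ℓ * ℓ))
  | some b => sb (ζ ^ (b : ℕ)) N

omit [NeZero ℓ] in
theorem exists_conj_of_isShape {ζ : Kˣ} {c : Kˣ} {a : ℕ} (h : IsShape ζ N ℓ c a) :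
    ∃ o : Option (Fin ℓ), sb c a = conj ζ N ℓ o := by
  rcases h with ⟨rfl, rfl⟩ | ⟨b, hb, rfl, rfl⟩
  · exact ⟨none, rfl⟩
  · exact ⟨some ⟨b, hb⟩, rfl⟩

/-- **NORM FORMULA**, in the variable `w = q^(1/(Nℓ))`. -/
theorem norm_formula_w (hmod : ModEqStatement) (hK : EnoughRoots K (N * ℓ)) (hℓ : ℓ.Prime)
    (hℓN : ¬ ℓ ∣ N) (ζ : Kˣ) (hζ : (cyclotomic ℓ K).IsRoot (ζ : K))
    (α : FF K N →+* FF K (N * ℓ)) (hα : ∀ x, (α x : LaurentSeries K) = x)
    (hfin : letI := α.toAlgebra; FiniteDimensional (FF K N) (FF K (N * ℓ)))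
    (hsep : letI := α.toAlgebra; Algebra.IsSeparable (FF K N) (FF K (N * ℓ)))
    (hdeg : letI := α.toAlgebra; Module.finrank (FF K N) (FF K (N * ℓ)) = ℓ + 1)
    (y : FF K N) :
    letI := α.toAlgebra
    qExpand K (N * ℓ)
        ((Algebra.norm (FF K N) (⟨qExpand K ℓ y, qExpand_mem_FF y.2⟩ : FF K (N * ℓ)) : FF K N) :
          LaurentSeries K) =
      sb 1 (N * (ℓ * ℓ)) (y : LaurentSeries K) *
        ∏ b ∈ Finset.range ℓ, sb (ζ ^ b) N (y : LaurentSeries K) := by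
  classical
  letI algFF' : Algebra (FF K N) (FF K (N * ℓ)) := α.toAlgebra
  haveI := hfin
  haveI := hsep
  -- the big field
  let E := AlgebraicClosure (LaurentSeries K)
  let ι : LaurentSeries K →+* E := algebraMap (LaurentSeries K) E
  let base : FF K N →+* E :=
    ι.comp ((qExpand K (N * ℓ)).comp (modularFunctionFieldFullC K N).val.toRingHom)
  letI algFE : Algebra (FF K N) E := base.toAlgebra
  have hbase : ∀ x : FF K N, algebraMap (FF K N) E x = ι (qExpand K (N * ℓ) (x : LaurentSeries K)) :=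
    fun x => rfl
  -- every embedding satisfies `BaseOn`
  have hBase : ∀ σ : FF K (N * ℓ) →ₐ[FF K N] E, BaseOn ι (σ : FF K (N * ℓ) →+* E) := by
    intro σ x hx
    have hxα : x = algebraMap (FF K N) (FF K (N * ℓ)) ⟨x, hx⟩ :=
      Subtype.ext (hα ⟨x, hx⟩).symm
    have h1 : σ x = algebraMap (FF K N) E ⟨x, hx⟩ := by
      conv_lhs => rw [hxα]
      exact σ.commutes _
    show σ x = _
    rw [h1, hbase]
  -- the classifying map
  have hcl : ∀ σ : FF K (N * ℓ) →ₐ[FF K N] E, ∃ o : Option (Fin ℓ),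
      ∀ (z : LaurentSeries K) (hz : z ∈ modularFunctionFieldFullC K N),
        σ ⟨qExpand K ℓ z, qExpand_mem_FF hz⟩ = ι (conj ζ N ℓ o z) := by
    intro σ
    obtain ⟨c, a, hshape, hc⟩ := classify hmod hK hℓ hℓN ζ hζ ι (σ : FF K (N * ℓ) →+* E) (hBase σ)
    obtain ⟨o, ho⟩ := exists_conj_of_isShape hshape
    exact ⟨o, fun z hz => by rw [← ho]; exact hc z hz⟩
  choose f hf using hcl
  have hinj : Function.Injective f := by
    intro σ σ' hσσ'
    have : (σ : FF K (N * ℓ) →+* E) = (σ' : FF K (N * ℓ) →+* E) := by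
      apply eq_of_agree hℓ ι _ _ (hBase σ) (hBase σ')
      intro z hz
      show σ _ = σ' _
      rw [hf σ z hz, hf σ' z hz, hσσ']
    exact AlgHom.coe_ringHom_injective this
  have hcard : Fintype.card (FF K (N * ℓ) →ₐ[FF K N] E) = Fintype.card (Option (Fin ℓ)) := by
    rw [AlgHom.card, hdeg, Fintype.card_option, Fintype.card_fin]
  have hbij : Function.Bijective f :=
    (Fintype.bijective_iff_injective_and_card f).mpr ⟨hinj, hcard⟩
  -- the norm as a product over the embeddings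
  have hnorm := Algebra.norm_eq_prod_embeddings (FF K N) E
    (⟨qExpand K ℓ y, qExpand_mem_FF y.2⟩ : FF K (N * ℓ))
  rw [hbase] at hnorm
  have hprod : ∏ σ : FF K (N * ℓ) →ₐ[FF K N] E,
      σ (⟨qExpand K ℓ y, qExpand_mem_FF y.2⟩ : FF K (N * ℓ)) =
      ∏ o : Option (Fin ℓ), ι (conj ζ N ℓ o (y : LaurentSeries K)) :=
    Fintype.prod_bijective f hbij _ _ (fun σ => hf σ y y.2)
  rw [hprod, Fintype.prod_option, ← map_prod, ← map_mul] at hnorm
  have h2 := ι.injective hnorm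
  rw [h2]
  congr 1
  exact Fin.prod_univ_eq_prod_range (fun b => sb (ζ ^ b) N (y : LaurentSeries K)) ℓ

/-- **NORM FORMULA**, in the variable `s = q^(1/ℓ)`:
`N_{F'/F}(y(q^ℓ))(s^ℓ) = y(s^(ℓ²)) · ∏_{b<ℓ} y(ζ^b s)`. -/
theorem norm_formula_s (hmod : ModEqStatement) (hK : EnoughRoots K (N * ℓ)) (hℓ : ℓ.Prime)
    (hℓN : ¬ ℓ ∣ N) (ζ : Kˣ) (hζ : (cyclotomic ℓ K).IsRoot (ζ : K))
    (α : FF K N →+* FF K (N * ℓ)) (hα : ∀ x, (α x : LaurentSeries K) = x)
    (hfin : letI := α.toAlgebra; FiniteDimensional (FF K N) (FF K (N * ℓ)))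
    (hsep : letI := α.toAlgebra; Algebra.IsSeparable (FF K N) (FF K (N * ℓ)))
    (hdeg : letI := α.toAlgebra; Module.finrank (FF K N) (FF K (N * ℓ)) = ℓ + 1)
    (y : FF K N) :
    letI := α.toAlgebra
    haveI : NeZero (ℓ * ℓ) := ⟨Nat.mul_ne_zero (NeZero.ne ℓ) (NeZero.ne ℓ)⟩
    qExpand K ℓ
        ((Algebra.norm (FF K N) (⟨qExpand K ℓ y, qExpand_mem_FF y.2⟩ : FF K (N * ℓ)) : FF K N) :
          LaurentSeries K) =
      qExpand K (ℓ * ℓ) (y : LaurentSeries K) *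
        ∏ b ∈ Finset.range ℓ, twist (ζ ^ b) (y : LaurentSeries K) := by
  have h := norm_formula_w hmod hK hℓ hℓN ζ hζ α hα hfin hsep hdeg y
  haveI : NeZero (N * (ℓ * ℓ)) :=
    ⟨Nat.mul_ne_zero (NeZero.ne N) (Nat.mul_ne_zero (NeZero.ne ℓ) (NeZero.ne ℓ))⟩
  apply qExpand_injective (R := K) N
  rw [qExpand_qExpand, h, map_mul, map_prod, qExpand_qExpand, sb_eq, subst_one_left]
  congr 1
  apply Finset.prod_congr rfl
  intro b _
  rw [sb_eq, subst_apply]

/-- **NORM FORMULA** for arbitrary presentations `F = F_N(K)`, `F' = F_{Nℓ}(K)` of the two fields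
and arbitrary maps `α` (inclusion) and `β` (`q ↦ q^ℓ`) between them. -/
theorem norm_formula_gen (hmod : ModEqStatement) (hK : EnoughRoots K (N * ℓ)) (hℓ : ℓ.Prime)
    (hℓN : ¬ ℓ ∣ N) (ζ : Kˣ) (hζ : (cyclotomic ℓ K).IsRoot (ζ : K))
    (F F' : IntermediateField K (LaurentSeries K)) (hF : F = modularFunctionFieldFullC K N)
    (hF' : F' = modularFunctionFieldFullC K (N * ℓ))
    (α β : F →+* F') (hα : ∀ x, (α x : LaurentSeries K) = x)
    (hβ : ∀ x, (β x : LaurentSeries K) = qExpand K ℓ (x : LaurentSeries K))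
    (hfin : letI := α.toAlgebra; FiniteDimensional F F')
    (hsep : letI := α.toAlgebra; Algebra.IsSeparable F F')
    (hdeg : letI := α.toAlgebra; Module.finrank F F' = ℓ + 1)
    (y : F) :
    letI := α.toAlgebra
    haveI : NeZero (ℓ * ℓ) := ⟨Nat.mul_ne_zero (NeZero.ne ℓ) (NeZero.ne ℓ)⟩
    qExpand K ℓ ((Algebra.norm F (β y) : F) : LaurentSeries K) =
      qExpand K (ℓ * ℓ) (y : LaurentSeries K) *
        ∏ b ∈ Finset.range ℓ, twist (ζ ^ b) (y : LaurentSeries K) := by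
  subst hF hF'
  have hβy : β y = (⟨qExpand K ℓ y, qExpand_mem_FF y.2⟩ : FF K (N * ℓ)) := Subtype.ext (hβ y)
  rw [hβy]
  exact norm_formula_s hmod hK hℓ hℓN ζ hζ α hα hfin hsep hdeg y

end Norm

end Fermat.Agent.S37.KronNorm38
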