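/-
S37 package [KRONECKER-NORM] (helper38), part 5: the statements over `ℚ̄` for the Prelude maps
`heckeAlphaBar` / `heckeBetaBar`, and KRONECKER ON NORMS (reduction modulo a place over `ℓ`).

* `norm_heckeBetaBar` : for `ℓ` prime, `ℓ ∤ N`, `y ∈ F_N`:
    `N_α(β y)(s^ℓ) = y(s^(ℓ²)) · ∏_{b<ℓ} y(ζ^b s)`    (`s = q^(1/ℓ)`),
  `N_α` = `Algebra.norm` for the algebra structure `heckeAlphaBar : F_N → F_{Nℓ}`.
* `kronecker_on_norms` : if `y = incl Y` with `Y ∈ A((q))`, then `N_α(β y) = incl Z` with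
  `Z ∈ A((q))` and `red Z = (red Y)(q^ℓ) · Frob(red Y)`.
-/
import Fermat.Agent.S37.KronNorm38.Norm
import Fermat.Agent.S37.KronNorm38.Degree
import Fermat.Agent.S37.KronNorm38.Frob
import Fermat.Agent.S18.BarFullC26
import Fermat.Agent.S18.ValQbar74
import Fermat.Agent.S28.KEY0

set_option autoImplicit false
set_option linter.style.haveILetI false

noncomputable section

open HahnSeries ModularCurve Polynomial

namespace Fermat.Agent.S37.KronNorm38

open Fermat.Agent.S28 Fermat.Agent.S28.Subst Fermat.Agent.S18.CuspLand85 Fermat.Agent.S24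

section Main

variable (N ℓ : ℕ) [NeZero N] [NeZero ℓ]

omit [NeZero ℓ] in
/-- a root of the `ℓ`-th cyclotomic polynomial in `ℚ̄`. -/
theorem exists_zeta (hℓ : ℓ.Prime) : ∃ ζ : Kbarˣ, (cyclotomic ℓ Kbar).IsRoot (ζ : Kbar) :=
  (enoughRoots_of_isAlgClosed Kbar ℓ).zeta ℓ hℓ dvd_rfl

/-- **(KN3) NORM FORMULA over `ℚ̄`.** -/
theorem norm_heckeBetaBar (hℓ : ℓ.Prime) (hℓN : ¬ ℓ ∣ N) (ζ : Kbarˣ)
    (hζ : (cyclotomic ℓ Kbar).IsRoot (ζ : Kbar)) (y : FN N) :
    letI := (heckeAlphaBar Kbar N ℓ).toRingHom.toAlgebra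
    haveI : NeZero (ℓ * ℓ) := ⟨Nat.mul_ne_zero (NeZero.ne ℓ) (NeZero.ne ℓ)⟩
    qExpand Kbar ℓ
        ((Algebra.norm (FN N) (heckeBetaBar Kbar N ℓ y) : FN N) : LaurentSeries Kbar) =
      qExpand Kbar (ℓ * ℓ) (y : LaurentSeries Kbar) *
        ∏ b ∈ Finset.range ℓ, twist (ζ ^ b) (y : LaurentSeries Kbar) := by
  haveI : NeZero (N * ℓ) := ⟨Nat.mul_ne_zero (NeZero.ne N) (NeZero.ne ℓ)⟩
  exact norm_formula_gen modEqStatement (enoughRoots_of_isAlgClosed Kbar (N * ℓ)) hℓ hℓN ζ hζ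
    (modularFunctionFieldBar N) (modularFunctionFieldBar (N * ℓ))
    (Fermat.Agent.S18.BarFullC26.modularFunctionFieldBar_eq_fullC N)
    (Fermat.Agent.S18.BarFullC26.modularFunctionFieldBar_eq_fullC (N * ℓ))
    (heckeAlphaBar Kbar N ℓ).toRingHom (heckeBetaBar Kbar N ℓ).toRingHom
    (fun x => coe_heckeAlphaBar N ℓ x) (fun x => coe_heckeBetaBar N ℓ x)
    (finite_heckeAlphaBar N ℓ hℓ hℓN) (isSeparable_heckeAlphaBar N ℓ hℓ hℓN)
    (finrank_heckeAlphaBar N ℓ hℓ hℓN) y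

end Main

/-! ### Kronecker on norms -/

section Kronecker

variable (N : ℕ) [NeZero N] {ℓ : ℕ} [NeZero ℓ] (A : ValuationSubring Kbar)

/-- a series with coefficients in `A` lifts to `A((q))`. -/
theorem exists_coeffMap_subtype_eq (z : LaurentSeries Kbar) (h : ∀ n, z.coeff n ∈ A) :
    ∃ Z : LaurentSeries A, coeffMap A.subtype Z = z := by
  have hbdd : BddBelow (Function.support fun n : ℤ => (⟨z.coeff n, h n⟩ : A)) := by
    refine ⟨z.order, ?_⟩
    intro n hn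
    rw [Function.mem_support] at hn
    apply HahnSeries.order_le_of_coeff_ne_zero
    intro h0
    exact hn (Subtype.ext h0)
  refine ⟨HahnSeries.ofSuppBddBelow _ hbdd, ?_⟩
  ext n
  rfl

/-- a root of unity of `ℚ̄` is a unit of `A`. -/
theorem exists_unit_of_pow_eq_one (ζ : Kbarˣ) {n : ℕ} (hn : n ≠ 0) (h : ζ ^ n = 1) :
    ∃ u : Aˣ, Units.map (A.subtype : A →* Kbar) u = ζ := by
  have key : ∀ ξ : Kbarˣ, ξ ^ n = 1 → (ξ : Kbar) ∈ A := by
    intro ξ hξ
    rcases A.mem_or_inv_mem (ξ : Kbar) with h1 | h1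
    · exact h1
    · have h2 : (ξ : Kbar) = ((ξ : Kbar)⁻¹) ^ (n - 1) := by
        have h3 : (ξ : Kbar) ^ n = 1 := by
          have := congrArg (Units.val) hξ
          simpa using this
        have hξ0 : (ξ : Kbar) ≠ 0 := ξ.ne_zero
        have h4 : (ξ : Kbar) ^ (n - 1) * ξ = 1 := by
          rw [← pow_succ, Nat.sub_add_cancel (Nat.one_le_iff_ne_zero.mpr hn), h3]
        rw [inv_pow]
        exact (eq_inv_of_mul_eq_one_right h4)
      rw [h2]
      exact pow_mem h1 _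
  have h1 : (ζ : Kbar) ∈ A := key ζ h
  have h2 : ((ζ⁻¹ : Kbarˣ) : Kbar) ∈ A := key ζ⁻¹ (by rw [inv_pow, h, inv_one])
  refine ⟨⟨⟨ζ, h1⟩, ⟨(ζ⁻¹ : Kbarˣ), h2⟩, Subtype.ext (by simp), Subtype.ext (by simp)⟩, ?_⟩
  exact Units.ext rfl

/-- **(KN4) KRONECKER ON NORMS.**  `ℓ` prime, `ℓ ∤ N`, `A` a valuation subring of `ℚ̄` over `ℓ`,
`y ∈ F_N` with `A`-integral `q`-expansion `Y`.  Then `N_α(β y)` has an `A`-integral `q`-expansion
`Z`, and `red Z = (red Y)(q^ℓ) · Frob(red Y)`. -/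
theorem kronecker_on_norms (hℓ : ℓ.Prime) (hℓN : ¬ ℓ ∣ N) (hA : A.LiesOverPrime ℓ)
    (y : FN N) (Y : LaurentSeries A) (hY : coeffMap A.subtype Y = (y : LaurentSeries Kbar)) :
    letI := (heckeAlphaBar Kbar N ℓ).toRingHom.toAlgebra
    haveI : Fact ℓ.Prime := ⟨hℓ⟩
    haveI : CharP (IsLocalRing.ResidueField A) ℓ :=
      Fermat.Agent.S18.ValQbar74.residueField_charP A hℓ hA
    ∃ Z : LaurentSeries A,
      coeffMap A.subtype Z =
        ((Algebra.norm (FN N) (heckeBetaBar Kbar N ℓ y) : FN N) : LaurentSeries Kbar) ∧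
      coeffMap (IsLocalRing.residue A) Z =
        qExpand (IsLocalRing.ResidueField A) ℓ (coeffMap (IsLocalRing.residue A) Y) *
          coeffMap (frobenius (IsLocalRing.ResidueField A) ℓ)
            (coeffMap (IsLocalRing.residue A) Y) := by
  classical
  letI := (heckeAlphaBar Kbar N ℓ).toRingHom.toAlgebra
  haveI : Fact ℓ.Prime := ⟨hℓ⟩
  haveI : NeZero (ℓ * ℓ) := ⟨Nat.mul_ne_zero (NeZero.ne ℓ) (NeZero.ne ℓ)⟩
  haveI hchar : CharP (IsLocalRing.ResidueField A) ℓ :=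
    Fermat.Agent.S18.ValQbar74.residueField_charP A hℓ hA
  obtain ⟨ζ, hζ⟩ := exists_zeta ℓ hℓ
  -- `ζ ^ ℓ = 1`
  have hζℓ : ζ ^ ℓ = 1 := by
    have hdvd : cyclotomic ℓ Kbar ∣ X ^ ℓ - 1 := cyclotomic.dvd_X_pow_sub_one ℓ Kbar
    have hroot : (X ^ ℓ - 1 : Kbar[X]).IsRoot (ζ : Kbar) := hζ.dvd hdvd
    rw [IsRoot.def, eval_sub, eval_pow, eval_X, eval_one, sub_eq_zero] at hroot
    exact Units.ext (by simpa using hroot)
  obtain ⟨u, hu⟩ := exists_unit_of_pow_eq_one A ζ (NeZero.ne ℓ) hζℓ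
  have huℓ : u ^ ℓ = 1 := by
    apply Units.map_injective (f := (A.subtype : A →* Kbar)) (Subtype.val_injective)
    rw [map_pow, hu, hζℓ, map_one]
  -- the reduction of `ζ` is `1`
  set k := IsLocalRing.ResidueField A with hk
  set res : A →+* k := IsLocalRing.residue A with hres
  have hubar : Units.map (res : A →* k) u = 1 := by
    have h1 : (Units.map (res : A →* k) u) ^ ℓ = 1 := by rw [← map_pow, huℓ, map_one]
    have h2 : ((Units.map (res : A →* k) u : kˣ) : k) ^ ℓ = 1 := by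
      have := congrArg Units.val h1
      simpa using this
    have h3 : (((Units.map (res : A →* k) u : kˣ) : k) - 1) ^ ℓ = 0 := by
      rw [sub_pow_char, h2, one_pow, sub_self]
    have h4 := pow_eq_zero_iff (NeZero.ne ℓ) |>.mp h3
    exact Units.ext (sub_eq_zero.mp h4)
  -- the series `W = Y(s^(ℓ²)) ∏ Y(ζ^b s)` over `A`
  set W : LaurentSeries A := qExpand A (ℓ * ℓ) Y * ∏ b ∈ Finset.range ℓ, twist (u ^ b) Y with hW
  set z : FN N := Algebra.norm (FN N) (heckeBetaBar Kbar N ℓ y) with hz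
  have hnorm := norm_heckeBetaBar N ℓ hℓ hℓN ζ hζ y
  have hinclW : coeffMap A.subtype W = qExpand Kbar ℓ (z : LaurentSeries Kbar) := by
    rw [hnorm, hW, map_mul, map_prod, coeffMap_qExpand, hY]
    congr 1
    apply Finset.prod_congr rfl
    intro b _
    rw [coeffMap_twist, hY, map_pow, hu]
  -- `z` has coefficients in `A`
  have hzA : ∀ n, (z : LaurentSeries Kbar).coeff n ∈ A := by
    intro n
    have h1 : (qExpand Kbar ℓ (z : LaurentSeries Kbar)).coeff ((ℓ : ℤ) * n) =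
        (z : LaurentSeries Kbar).coeff n := qExpand_coeff_mul ℓ _ n
    rw [← h1, ← hinclW, coeffMap_coeff]
    exact (W.coeff _).2
  obtain ⟨Z, hZ⟩ := exists_coeffMap_subtype_eq A (z : LaurentSeries Kbar) hzA
  refine ⟨Z, hZ, ?_⟩
  -- `Z(s^ℓ) = W`
  have hZW : qExpand A ℓ Z = W := by
    apply KEY0.coeffMap_injective A.subtype Subtype.val_injective
    rw [coeffMap_qExpand, hZ, hinclW]
  -- reduce
  have hred := congrArg (coeffMap res) hZW
  rw [coeffMap_qExpand, hW, map_mul, map_prod, coeffMap_qExpand] at hred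
  have hprod : ∏ b ∈ Finset.range ℓ, coeffMap res (twist (u ^ b) Y) = (coeffMap res Y) ^ ℓ := by
    have : ∀ b ∈ Finset.range ℓ, coeffMap res (twist (u ^ b) Y) = coeffMap res Y := by
      intro b _
      rw [coeffMap_twist, map_pow, hubar, one_pow, twist_one]
    rw [Finset.prod_congr rfl this, Finset.prod_const, Finset.card_range]
  rw [hprod, laurent_pow_char ℓ, ← qExpand_qExpand, ← map_mul] at hred
  exact qExpand_injective (R := k) ℓ hred

end Kronecker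


end Fermat.Agent.S37.KronNorm38
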